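import Fermat.Agent.S16.Defs
import Fermat.Agent.S20.C0_helper516
import Fermat.Agent.S20.L0_helper980
import Fermat.Agent.S20.L1.Divisors
import Fermat.Agent.S22T.DeltaInt
import Fermat.Prelude.Thm_ModularFormClass_qCoeff_heckeT
import Fermat.Prelude.Def_ModularForm_HeckeOperatorForms

/-!
# S16, work package L1 (helper128): level one facts

Exact statements of the section `L1` of `origin/helper556:Fermat/Agent/S16/Skeleton.lean`:

* `SF_top_fourteen` : `S₁₄(SL₂ℤ) = 0`;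
* `MF_top_two` : `M₂(SL₂ℤ) = 0`;
* `exists_tau` : Ramanujan's `τ` is integral, `τ 0 = 0`, `τ 1 = 1`, `τ (p²) = τ p ² - p¹¹`;
* `evRho_int` : integrality of `H ↦ H(ρ) / Δ(ρ)^j` on level one forms of weight `12 j` with
  integral `q`-expansion;
* `exists_rho` : `E₄` has a zero.
-/

set_option autoImplicit false

noncomputable section

namespace Fermat.Agent.S16.H128

open Fermat.Agent.S16

open UpperHalfPlane ModularForm CongruenceSubgroup MatrixGroups ModularFormClass EisensteinSeries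
open Fermat.Agent.S20 (MF SF)
open scoped Manifold

local notation "Δ" => ModularForm.discriminant

/-- `M₂(SL₂ℤ) = 0`. -/
theorem MF_top_two : MF (⊤ : Subgroup SL(2, ℤ)) 2 = ⊥ := by
  rw [eq_bot_iff]
  intro f hf
  have h := rank_zero_iff_forall_zero.mp ModularForm.levelOne_weight_two_rank_zero
    (Fermat.Agent.S20.C980.ofMFtop hf)
  have h2 : (⇑(Fermat.Agent.S20.C980.ofMFtop hf) : ℍ → ℂ) = 0 := by rw [h]; rfl
  exact (Submodule.mem_bot ℂ).mpr h2

/-- `S₁₄(SL₂ℤ) = 0`. -/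
theorem SF_top_fourteen : SF (⊤ : Subgroup SL(2, ℤ)) 14 = ⊥ := by
  rw [eq_bot_iff]
  intro f hf
  obtain ⟨g, hg, rfl⟩ := Fermat.Agent.S20.C980.exists_eq_discriminant_mul_top hf
  have hg' : g ∈ MF (⊤ : Subgroup SL(2, ℤ)) 2 := by
    have : (14 : ℤ) - 12 = 2 := by norm_num
    rwa [this] at hg
  rw [MF_top_two] at hg'
  have hg0 : g = 0 := (Submodule.mem_bot ℂ).mp hg'
  rw [hg0, mul_zero]
  exact Submodule.zero_mem _

theorem exists_rho : ∃ ρ : ℍ, (E₄ : ℍ → ℂ) ρ = 0 :=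
  ⟨Fermat.Agent.S20.L1.rhoPt, Fermat.Agent.S20.L1.E₄_rhoPt⟩

/-! ## Ramanujan `τ` -/

theorem gamma0_one_eq_top' : Gamma0 1 = ⊤ := by
  ext γ
  simp [Gamma0_mem, Subsingleton.elim _ (0 : ZMod 1)]

/-- `T_p Δ` is a level one cusp form of weight 12. -/
theorem heckeT_discriminant_mem (p : ℕ) (hp : p.Prime) :
    heckeT 12 p (Δ : ℍ → ℂ) ∈ SF (⊤ : Subgroup SL(2, ℤ)) 12 := by
  have hΔ : (Δ : ℍ → ℂ) ∈ SF (Gamma0 1) 12 := by
    rw [gamma0_one_eq_top']
    exact Fermat.Agent.S20.C980.discriminant_mem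
  obtain ⟨g, hg⟩ := Fermat.Agent.S20.C0h516.mem_SF_iff_exists.mp hΔ
  have hpN : ¬ p ∣ 1 := hp.not_dvd_one
  have h := Fermat.Agent.S20.C0h516.coe_mem_SF (CuspForm.heckeTLin 12 hp hpN g)
  rw [CuspForm.coe_heckeTLin_apply, hg, gamma0_one_eq_top'] at h
  exact h

/-- `T_p Δ = c Δ`. -/
theorem heckeT_discriminant_eq (p : ℕ) (hp : p.Prime) :
    ∃ c : ℂ, heckeT 12 p (Δ : ℍ → ℂ) = c • (Δ : ℍ → ℂ) := by
  obtain ⟨c, hc⟩ := CuspForm.exists_smul_discriminant_of_weight_eq_twelve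
    (Fermat.Agent.S20.C980.ofSFtop (heckeT_discriminant_mem p hp))
  refine ⟨c, ?_⟩
  have h := congrArg (fun f : CuspForm 𝒮ℒ 12 => (⇑f : ℍ → ℂ)) hc
  simp only [Fermat.Agent.S20.C980.coe_ofSFtop] at h
  rw [← h]
  rfl

theorem qCoeff_discriminant (n : ℕ) : qCoeff (Δ : ℍ → ℂ) n = (Fermat.Agent.S22T.tau n : ℂ) :=
  Fermat.Agent.S22T.qExpansion_discriminant_coeff n

theorem coeffHeckeT_discriminant (p : ℕ) (hp : p.Prime) :
    ∃ c : ℂ, ∀ n : ℕ, coeffHeckeT 12 p (qCoeff (Δ : ℍ → ℂ)) n = c * qCoeff (Δ : ℍ → ℂ) n := by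
  obtain ⟨c, hc⟩ := heckeT_discriminant_eq p hp
  refine ⟨c, fun n => ?_⟩
  have h1 := ModularFormClass.qCoeff_heckeT CuspForm.discriminant one_mem_strictPeriods_SL
    hp.ne_zero n
  rw [CuspForm.coe_discriminant] at h1
  rw [← h1, hc]
  unfold qCoeff
  rw [Fermat.Agent.S22T.qExpansion_smul_of_mem c Fermat.Agent.S22T.discriminant_mem]
  simp

/-- Ramanujan's `τ` is integral, `τ(0) = 0`, `τ(1) = 1`, and `τ(p²) = τ(p)² - p¹¹`. -/
theorem exists_tau : ∃ τ : ℕ → ℤ, (∀ n, qCoeff (Δ : ℍ → ℂ) n = (τ n : ℂ)) ∧ τ 0 = 0 ∧ τ 1 = 1 ∧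
    ∀ p : ℕ, p.Prime → τ (p ^ 2) = τ p ^ 2 - (p : ℤ) ^ 11 := by
  refine ⟨Fermat.Agent.S22T.tau, qCoeff_discriminant, Fermat.Agent.S22T.tau_zero,
    Fermat.Agent.S22T.tau_one, fun p hp => ?_⟩
  obtain ⟨c, hc⟩ := coeffHeckeT_discriminant p hp
  have h1 := hc 1
  have hp' := hc p
  simp only [coeffHeckeT_apply, qCoeff_discriminant, one_mul, Nat.dvd_one, hp.ne_one, if_false,
    add_zero, Fermat.Agent.S22T.tau_one, Int.cast_one, mul_one, dvd_refl, if_true,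
    Nat.div_self hp.pos] at h1 hp'
  rw [← h1] at hp'
  have h11 : ((p : ℂ)) ^ ((12 : ℤ) - 1) = (p : ℂ) ^ (11 : ℕ) := by
    have : (12 : ℤ) - 1 = ((11 : ℕ) : ℤ) := by norm_num
    rw [this, zpow_natCast]
  rw [h11, ← sq] at hp'
  have h : (((Fermat.Agent.S22T.tau (p ^ 2) + (p : ℤ) ^ 11 : ℤ)) : ℂ) =
      ((Fermat.Agent.S22T.tau p ^ 2 : ℤ) : ℂ) := by
    push_cast
    rw [hp']
    ring
  have h' := Int.cast_injective h
  linarith

/-! ## Integrality of evaluation at `ρ` -/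

/-- Power series over `ℂ` with integer coefficients. -/
def intSeries : Subring (PowerSeries ℂ) := (PowerSeries.map (Int.castRingHom ℂ)).range

theorem mem_intSeries_iff {P : PowerSeries ℂ} :
    P ∈ intSeries ↔ ∀ n : ℕ, ∃ m : ℤ, P.coeff n = (m : ℂ) := by
  constructor
  · rintro ⟨Q, rfl⟩ n
    exact ⟨Q.coeff n, by simp⟩
  · intro h
    choose m hm using h
    refine ⟨PowerSeries.mk m, ?_⟩
    ext n
    simp [hm n]

theorem map_mem_intSeries (Q : PowerSeries ℤ) : Q.map (Int.castRingHom ℂ) ∈ intSeries :=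
  ⟨Q, rfl⟩

theorem C_int_mem_intSeries (n : ℤ) : PowerSeries.C (n : ℂ) ∈ intSeries :=
  ⟨PowerSeries.C n, by simp⟩

/-- Division by a series `d = q + ...` in `ℤ⟦q⟧`. -/
theorem mem_intSeries_of_mul {g h : PowerSeries ℂ} (d : PowerSeries ℤ) (hd0 : d.coeff 0 = 0)
    (hd1 : d.coeff 1 = 1) (hg : g ∈ intSeries) (h_eq : g = d.map (Int.castRingHom ℂ) * h) :
    h ∈ intSeries := by
  obtain ⟨g₀, rfl⟩ := hg
  -- `d = X * u`
  obtain ⟨u, hu⟩ : PowerSeries.X ∣ d := by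
    rw [PowerSeries.X_dvd_iff, ← PowerSeries.coeff_zero_eq_constantCoeff_apply]
    exact hd0
  have hu1 : PowerSeries.constantCoeff u = 1 := by
    have := congrArg (PowerSeries.coeff 1) hu
    rw [hd1, show (1 : ℕ) = 0 + 1 from rfl, PowerSeries.coeff_succ_X_mul,
      PowerSeries.coeff_zero_eq_constantCoeff_apply] at this
    exact this.symm
  have huu : IsUnit u := by
    rw [PowerSeries.isUnit_iff_constantCoeff, hu1]
    exact isUnit_one
  obtain ⟨v, hv⟩ := huu.exists_left_inv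
  -- `g₀ = X * g₁`
  have hg0 : PowerSeries.constantCoeff g₀ = 0 := by
    have hd0' : PowerSeries.constantCoeff d = 0 := by
      rw [← PowerSeries.coeff_zero_eq_constantCoeff_apply]; exact hd0
    have := congrArg PowerSeries.constantCoeff h_eq
    rw [map_mul, ← PowerSeries.coeff_zero_eq_constantCoeff_apply,
      ← PowerSeries.coeff_zero_eq_constantCoeff_apply, PowerSeries.coeff_map,
      PowerSeries.coeff_map, hd0, map_zero, zero_mul] at this
    rw [← PowerSeries.coeff_zero_eq_constantCoeff_apply]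
    simpa using this
  obtain ⟨g₁, hg1⟩ := PowerSeries.X_dvd_iff.mpr hg0
  rw [hg1, hu, map_mul, map_mul, PowerSeries.map_X, mul_assoc] at h_eq
  have h2 := PowerSeries.X_mul_cancel h_eq
  refine ⟨v * g₁, ?_⟩
  rw [map_mul, h2, ← mul_assoc, ← map_mul, hv, map_one, one_mul]

theorem qExpansion_E₄_mem : qExpansion 1 (E₄ : ℍ → ℂ) ∈ intSeries := by
  rw [Fermat.Agent.S22T.qExpansion_E4]
  exact map_mem_intSeries _

theorem intAll_iff {H : ℍ → ℂ} : IntAll H ↔ qExpansion 1 H ∈ intSeries :=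
  mem_intSeries_iff.symm

/-- `E₄ ^ n` as a modular form of weight `k = 4 n`. -/
def E4pow (n : ℕ) (k : ℤ) (hk : (n : ℤ) * 4 = k) : ModularForm 𝒮ℒ k :=
  ModularForm.mcast hk (E₄.pow n)

theorem E4pow_apply (n : ℕ) (k : ℤ) (hk : (n : ℤ) * 4 = k) (z : ℍ) :
    E4pow n k hk z = E₄ z ^ n := by
  simp [E4pow]

theorem qExpansion_E4pow (n : ℕ) (k : ℤ) (hk : (n : ℤ) * 4 = k) :
    qExpansion 1 (E4pow n k hk) = qExpansion 1 (E₄ : ℍ → ℂ) ^ n := by
  rw [E4pow, ModularForm.qExpansion_mcast,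
    ModularForm.qExpansion_pow one_pos one_mem_strictPeriods_SL]

theorem coeff_zero_qExpansion_E₄ : (qExpansion 1 (E₄ : ℍ → ℂ)).coeff 0 = 1 :=
  E_qExpansion_coeff_zero (by norm_num) (by decide)

theorem evRho_int_aux (ρ : ℍ) (hρ : (E₄ : ℍ → ℂ) ρ = 0) (j : ℕ) :
    ∀ (k : ℤ) (_ : k = 12 * j) (F : ModularForm 𝒮ℒ k), qExpansion 1 F ∈ intSeries →
      ∃ m : ℤ, F ρ = (m : ℂ) * (Δ : ℍ → ℂ) ρ ^ j := by
  induction j with
  | zero =>
    intro k hk F hF
    simp only [Nat.cast_zero, mul_zero] at hk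
    subst hk
    obtain ⟨c, hc⟩ := levelOne_weight_zero_const F
    have h1 : qExpansion 1 F = PowerSeries.C c := by
      have : (F : ℍ → ℂ) = c • ⇑(1 : ModularForm 𝒮ℒ 0) := by
        rw [hc]; ext z; simp
      rw [this, ModularForm.qExpansion_smul one_pos one_mem_strictPeriods_SL,
        ModularForm.qExpansion_one, PowerSeries.smul_eq_C_mul, mul_one]
    obtain ⟨m, hm⟩ := mem_intSeries_iff.mp hF 0
    rw [h1, PowerSeries.coeff_zero_C] at hm
    refine ⟨m, ?_⟩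
    rw [pow_zero, mul_one, ← hm, hc]
    rfl
  | succ j ih =>
    intro k hk F hF
    obtain ⟨n₀, hn₀⟩ := mem_intSeries_iff.mp hF 0
    have hk4 : ((3 * (j + 1) : ℕ) : ℤ) * 4 = k := by rw [hk]; push_cast; ring
    set G : ModularForm 𝒮ℒ k := F - (n₀ : ℂ) • E4pow (3 * (j + 1)) k hk4 with hG
    have hGq : qExpansion 1 G = qExpansion 1 F -
        PowerSeries.C (n₀ : ℂ) * qExpansion 1 (E₄ : ℍ → ℂ) ^ (3 * (j + 1)) := by
      have h1 : (G : ℍ → ℂ) = ⇑F - ⇑((n₀ : ℂ) • E4pow (3 * (j + 1)) k hk4) := rfl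
      rw [h1, ModularForm.qExpansion_sub one_pos one_mem_strictPeriods_SL]
      have h2 : (⇑((n₀ : ℂ) • E4pow (3 * (j + 1)) k hk4) : ℍ → ℂ) =
          (n₀ : ℂ) • ⇑(E4pow (3 * (j + 1)) k hk4) := rfl
      rw [h2, ModularForm.qExpansion_smul one_pos one_mem_strictPeriods_SL, qExpansion_E4pow,
        PowerSeries.smul_eq_C_mul]
    have hGint : qExpansion 1 G ∈ intSeries := by
      rw [hGq]
      exact Subring.sub_mem _ hF
        (Subring.mul_mem _ (C_int_mem_intSeries n₀) (Subring.pow_mem _ qExpansion_E₄_mem _))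
    have hG0 : (qExpansion 1 G).coeff 0 = 0 := by
      rw [hGq, map_sub, PowerSeries.coeff_zero_eq_constantCoeff, map_mul, map_pow]
      simp only [← PowerSeries.coeff_zero_eq_constantCoeff, coeff_zero_qExpansion_E₄]
      simp [hn₀]
    set H : ModularForm 𝒮ℒ (k - 12) := CuspForm.discriminantEquiv (G.toCuspForm hG0) with hH
    have hq := ModularForm.qExpansion_eq_qExpansion_discriminant_mul G hG0
    rw [Fermat.Agent.S22T.qExpansion_discriminant, ← hH] at hq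
    have hHint : qExpansion 1 H ∈ intSeries :=
      mem_intSeries_of_mul Fermat.Agent.S22T.deltaSeries Fermat.Agent.S22T.tau_zero
        Fermat.Agent.S22T.tau_one hGint hq
    obtain ⟨m, hm⟩ := ih (k - 12) (by rw [hk]; push_cast; ring) H hHint
    refine ⟨m, ?_⟩
    have hGH : G ρ = (Δ : ℍ → ℂ) ρ * H ρ := by
      rw [hH, discriminant_mul_discriminantEquiv_apply]; rfl
    have hFG : F ρ = (n₀ : ℂ) * E₄ ρ ^ (3 * (j + 1)) + G ρ := by
      have : G ρ = F ρ - (n₀ : ℂ) * E4pow (3 * (j + 1)) k hk4 ρ := rfl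
      rw [this, E4pow_apply]; ring
    rw [hFG, hρ, zero_pow (by omega), mul_zero, zero_add, hGH, hm]
    ring

/-- Integrality of `H ↦ H(ρ)/Δ(ρ)^j` on level one forms of weight `12 j` with integral
`q`-expansion (basis `Δ^i E₄^{3(j-i)}`, `E₄(ρ) = 0`). -/
theorem evRho_int (ρ : ℍ) (hρ : (E₄ : ℍ → ℂ) ρ = 0) (j : ℕ) {H : ℍ → ℂ}
    (hH : H ∈ MF (⊤ : Subgroup SL(2, ℤ)) (12 * j)) (hint : IntAll H) :
    ∃ m : ℤ, H ρ = (m : ℂ) * (Δ : ℍ → ℂ) ρ ^ j :=
  evRho_int_aux ρ hρ j (12 * j) rfl (Fermat.Agent.S20.C980.ofMFtop hH) (intAll_iff.mp hint)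

end Fermat.Agent.S16.H128
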