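import Fermat.Agent.S16.H131.U4
import Fermat.Agent.S16.H377.SkelFR
import Fermat.Agent.S16.H260.QCalc

/-!
# S16, work package U4 (helper128): instantiation of helper131's abstract Fricke system

`frickeSys p : H131.FrickeSys p _` is the Fricke system of the genuine modular forms on `Γ₀(p)`:
`Form w (a, b)` iff `a = q(F)`, `b = q(F^)` for some `F ∈ MF (Gamma0 p) w`.
Consequence: the EXACT statement `U4` of `origin/helper556:Fermat/Agent/S16/Skeleton.lean`.

Inputs (all on main): helper131's abstract `FrickeSys.U4`, helper377's FR package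
(`hat_*`, `tr_mem_MF`), helper260's `q`-calculus (`Nice`, `qCoeff_heckeU`, `qCoeff_Vp`).
-/

set_option autoImplicit false

noncomputable section

namespace Fermat.Agent.S16.H128

open Fermat.Agent.S16

open UpperHalfPlane ModularForm CongruenceSubgroup MatrixGroups ModularFormClass EisensteinSeries
open Fermat.Agent.S20 (MF SF)
open scoped Manifold

/-! ## Generalities on `MF` -/

theorem mem_MF_of_mem_top {Γ : Subgroup SL(2, ℤ)} {k : ℤ} {f : ℍ → ℂ}
    (hf : f ∈ MF (⊤ : Subgroup SL(2, ℤ)) k) : f ∈ MF Γ k :=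
  ⟨hf.1, fun γ _ => hf.2.1 γ (Subgroup.mem_top γ), hf.2.2⟩

theorem mul_mem_MF_gen {Γ : Subgroup SL(2, ℤ)} {a b : ℤ} {f g : ℍ → ℂ}
    (hf : f ∈ MF Γ a) (hg : g ∈ MF Γ b) : f * g ∈ MF Γ (a + b) := by
  refine ⟨hf.1.mul hg.1, fun γ hγ => ?_, fun γ => ?_⟩
  · rw [mul_slash_SL2, hf.2.1 γ hγ, hg.2.1 γ hγ]
  · rw [mul_slash_SL2]
    exact (hf.2.2 γ).mul (hg.2.2 γ)

/-! ## `q`-expansions of forms on `Γ₀(p)` -/

section QExp

variable {p : ℕ} {k : ℤ}

theorem nice_of_mem {F : ℍ → ℂ} (hF : F ∈ MF (Gamma0 p) k) : H260.Nice F :=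
  H260.nice_of_mem_MF_Gamma0 hF

theorem qExpansion_add_of_nice {F G : ℍ → ℂ} (hF : H260.Nice F) (hG : H260.Nice G) :
    qExpansion 1 (F + G) = qExpansion 1 F + qExpansion 1 G :=
  qExpansion_add hF.analyticAt hG.analyticAt

theorem qExpansion_smul_of_nice {F : ℍ → ℂ} (hF : H260.Nice F) (c : ℂ) :
    qExpansion 1 (c • F) = c • qExpansion 1 F :=
  qExpansion_smul hF.analyticAt c

theorem qExpansion_mul_of_nice {F G : ℍ → ℂ} (hF : H260.Nice F) (hG : H260.Nice G) :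
    qExpansion 1 (F * G) = qExpansion 1 F * qExpansion 1 G :=
  qExpansion_mul hF.analyticAt hG.analyticAt

theorem qExpansion_heckeU_of_nice {F : ℍ → ℂ} (hF : H260.Nice F) (w : ℤ) (hp : p ≠ 0) :
    qExpansion 1 (heckeU w p F) = H131.Uop p (qExpansion 1 F) := by
  ext n
  rw [H131.coeff_Uop]
  have h := H260.qCoeff_heckeU hF w hp n
  unfold qCoeff at h
  rw [h, mul_comm]

theorem qExpansion_Vp_of_nice {F : ℍ → ℂ} (hF : H260.Nice F) (hp : p ≠ 0) :
    qExpansion 1 (Vp p F) = PowerSeries.expand p hp (qExpansion 1 F) := by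
  ext n
  have h := (H260.qCoeff_Vp hF (Nat.pos_of_ne_zero hp)).2 n
  unfold qCoeff at h
  rw [h, PowerSeries.coeff_expand]

end QExp

/-! ## The Fricke system of genuine modular forms -/

section Sys

variable (p : ℕ) [hpp : Fact p.Prime]

/-- `a = q(F)`, `b = q(F^)` for some `F ∈ M_w(Γ₀(p))`. -/
def FormPred (w : ℤ) (x : H131.PP) : Prop :=
  ∃ F ∈ MF (Gamma0 p) w, qExpansion 1 F = x.1 ∧ qExpansion 1 (hat p w F) = x.2

theorem formPred_add {w : ℤ} {x y : H131.PP} (hx : FormPred p w x) (hy : FormPred p w y) :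
    FormPred p w (x + y) := by
  obtain ⟨F, hF, h1, h2⟩ := hx
  obtain ⟨G, hG, h3, h4⟩ := hy
  refine ⟨F + G, Submodule.add_mem _ hF hG, ?_, ?_⟩
  · rw [qExpansion_add_of_nice (nice_of_mem hF) (nice_of_mem hG), h1, h3]
    rfl
  · rw [H377.FR.hat_add,
      qExpansion_add_of_nice (nice_of_mem (H377.FR.hat_mem_MF p hF))
        (nice_of_mem (H377.FR.hat_mem_MF p hG)), h2, h4]
    rfl

theorem formPred_smul {w : ℤ} {x : H131.PP} (c : ℂ) (hx : FormPred p w x) :
    FormPred p w (c • x) := by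
  obtain ⟨F, hF, h1, h2⟩ := hx
  refine ⟨c • F, Submodule.smul_mem _ c hF, ?_, ?_⟩
  · rw [qExpansion_smul_of_nice (nice_of_mem hF), h1]
    rfl
  · rw [H377.FR.hat_smul, qExpansion_smul_of_nice (nice_of_mem (H377.FR.hat_mem_MF p hF)), h2]
    rfl

theorem formPred_mul {w w' : ℤ} {x y : H131.PP} (hx : FormPred p w x) (hy : FormPred p w' y) :
    FormPred p (w + w') (x * y) := by
  obtain ⟨F, hF, h1, h2⟩ := hx
  obtain ⟨G, hG, h3, h4⟩ := hy
  refine ⟨F * G, mul_mem_MF_gen hF hG, ?_, ?_⟩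
  · rw [qExpansion_mul_of_nice (nice_of_mem hF) (nice_of_mem hG), h1, h3]
    rfl
  · rw [H377.FR.hat_mul,
      qExpansion_mul_of_nice (nice_of_mem (H377.FR.hat_mem_MF p hF))
        (nice_of_mem (H377.FR.hat_mem_MF p hG)), h2, h4]
    rfl

theorem formPred_ofL1 {w : ℤ} {a : PowerSeries ℂ} (ha : H131.IsL1 w a) :
    FormPred p w (a, (p : ℂ) ^ w • PowerSeries.expand p hpp.out.ne_zero a) := by
  obtain ⟨f, rfl⟩ := ha
  have hf : (⇑f : ℍ → ℂ) ∈ MF (⊤ : Subgroup SL(2, ℤ)) w :=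
    Fermat.Agent.S20.C0h516.mem_MF_top_iff_exists.mpr ⟨f, rfl⟩
  refine ⟨⇑f, mem_MF_of_mem_top hf, rfl, ?_⟩
  have hV : H260.Nice (Vp p (⇑f : ℍ → ℂ)) := nice_of_mem (H377.FR.Vp_mem_MF p hf)
  rw [H377.FR.hat_levelOne p hf, qExpansion_smul_of_nice hV,
    qExpansion_Vp_of_nice (H260.nice_of_mem_MF_top hf) hpp.out.ne_zero]

theorem formPred_symm {w : ℤ} {x : H131.PP} (hw : Even w) (hx : FormPred p w x) :
    FormPred p w (x.2, (p : ℂ) ^ w • x.1) := by
  obtain ⟨F, hF, h1, h2⟩ := hx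
  refine ⟨hat p w F, H377.FR.hat_mem_MF p hF, h2, ?_⟩
  rw [H377.FR.hat_hat p hw, qExpansion_smul_of_nice (nice_of_mem hF), h1]

theorem formPred_trace {w : ℤ} {x : H131.PP} (hx : FormPred p w x) :
    H131.IsL1 w (x.1 + (p : ℂ) ^ (1 - w) • H131.Uop p x.2) := by
  obtain ⟨F, hF, h1, h2⟩ := hx
  obtain ⟨f, hf⟩ := Fermat.Agent.S20.C0h516.mem_MF_top_iff_exists.mp (H377.FR.tr_mem_MF p hF)
  refine ⟨f, ?_⟩
  have hhat : H260.Nice (hat p w F) := nice_of_mem (H377.FR.hat_mem_MF p hF)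
  rw [hf, tr, qExpansion_add_of_nice (nice_of_mem hF) ((hhat.heckeU w p).smul _),
    qExpansion_smul_of_nice (hhat.heckeU w p),
    qExpansion_heckeU_of_nice hhat w hpp.out.ne_zero, h1, h2]

/-- The Fricke system of the modular forms on `Γ₀(p)`. -/
def frickeSys : H131.FrickeSys p hpp.out.ne_zero where
  Form := FormPred p
  add := formPred_add p
  smul := formPred_smul p
  mul := formPred_mul p
  ofL1 := formPred_ofL1 p
  symm := formPred_symm p
  trace := formPred_trace p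

end Sys

/-! ## WP U4 : the case `p ≡ 7 mod 8` -/

/-- No `G ∈ M₂(Γ₀(p))`, `p ≡ 7 mod 8`, has integral `q`-expansion `≡ odd constant mod 8`. -/
theorem U4 (p : ℕ) [Fact p.Prime] (hp8 : p % 8 = 7) {G : ℍ → ℂ} (hG : G ∈ MF (Gamma0 p) 2)
    (s : ℤ) (hs : Odd s) (h0 : qCoeff G 0 = (s : ℂ))
    (hcong : ∀ k : ℕ, 1 ≤ k → ∃ m : ℤ, qCoeff G k = 8 * (m : ℂ)) : False := by
  have h8 : 8 ∣ p + 1 := by omega
  choose m hm using hcong
  let x : PowerSeries ℤ := PowerSeries.mk fun k => if h : 1 ≤ k then m k h else 0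
  have hq : qExpansion 1 G = H131.ι (PowerSeries.C s + 8 * x) := by
    ext n
    have h8' : (8 : PowerSeries ℤ) = PowerSeries.C (8 : ℤ) := by rw [map_ofNat]
    rw [PowerSeries.coeff_map, map_add, h8', PowerSeries.coeff_C_mul, PowerSeries.coeff_mk,
      PowerSeries.coeff_C]
    by_cases hn : 1 ≤ n
    · have hn0 : n ≠ 0 := by omega
      have := hm n hn
      unfold qCoeff at this
      rw [this, dif_pos hn, if_neg hn0]
      simp
    · have hn0 : n = 0 := by omega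
      subst hn0
      unfold qCoeff at h0
      rw [h0, dif_neg hn]
      simp
  exact (frickeSys p).U4 h8 s hs x (qExpansion 1 (hat p 2 G)) ⟨G, hG, hq, rfl⟩

end Fermat.Agent.S16.H128
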